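import Mathlib

/-!
# Hilbert 90 at finite level for a subgroup of an infinite Galois group (helper649)

`Ω / K` Galois (possibly infinite), `H` a subgroup of `Gal(Ω/K)` (NOT assumed closed),
`f : Gal(Ω/K) → Ω` nowhere vanishing on `H`, a `1`-cocycle on `H`,
`f (σ τ) = f σ · σ (f τ)`, right-invariant under the elements of `H` fixing a finite subextension
`E`.  Then there is `α ≠ 0` with `σ α = f σ · α` for all `σ ∈ H`.

Proof: Poincaré series over the image of `H` in `Gal(E'/K)`, `E'` the normal closure of `E`, and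
Dedekind's independence of characters (as in `Fermat.Agent.S56.H734.hilbert90_of_level`, which is
the case `H = ⊤`).  Mathlib only.
-/

set_option autoImplicit false
set_option linter.style.haveILetI false

namespace Fermat.Agent.S59.H649

open IntermediateField

/-- **Hilbert 90 at finite level on a subgroup**, form `f σ · σ α = α`. -/
theorem hilbert90_subgroup_aux {K Ω : Type*} [Field K] [Field Ω] [Algebra K Ω] [IsGalois K Ω]
    (H : Subgroup (Ω ≃ₐ[K] Ω))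
    (f : (Ω ≃ₐ[K] Ω) → Ω) (hf0 : ∀ σ ∈ H, f σ ≠ 0)
    (hf : ∀ σ ∈ H, ∀ τ ∈ H, f (σ * τ) = f σ * σ (f τ))
    (E : IntermediateField K Ω) [FiniteDimensional K E]
    (hlev : ∀ σ ∈ H, ∀ τ ∈ H, (∀ x ∈ E, τ x = x) → f (σ * τ) = f σ) :
    ∃ α : Ω, α ≠ 0 ∧ ∀ σ ∈ H, f σ * σ α = α := by
  classical
  -- pass to the normal closure
  let E' : IntermediateField K Ω := IntermediateField.normalClosure K E Ω
  have : Normal K E' := normalClosure.normal K E Ω
  have : FiniteDimensional K E' := normalClosure.is_finiteDimensional K E Ω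
  have hEE' : E ≤ E' := E.le_normalClosure
  let res : (Ω ≃ₐ[K] Ω) →* (E' ≃ₐ[K] E') := AlgEquiv.restrictNormalHom E'
  have hres_apply : ∀ (σ : Ω ≃ₐ[K] Ω) (x : E'), ((res σ x : E') : Ω) = σ (x : Ω) :=
    fun σ x => AlgEquiv.restrictNormal_commutes σ E' x
  -- the image of `H`
  let Hbar : Subgroup (E' ≃ₐ[K] E') := H.map res
  have hsec : ∀ γ : Hbar, ∃ σ : Ω ≃ₐ[K] Ω, σ ∈ H ∧ res σ = (γ : E' ≃ₐ[K] E') := fun γ => γ.2
  let s : Hbar → (Ω ≃ₐ[K] Ω) := fun γ => (hsec γ).choose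
  have hsH : ∀ γ, s γ ∈ H := fun γ => (hsec γ).choose_spec.1
  have hs : ∀ γ : Hbar, res (s γ) = (γ : E' ≃ₐ[K] E') := fun γ => (hsec γ).choose_spec.2
  -- `f` depends only on the restriction to `E'` (on `H`)
  have hdep : ∀ σ ∈ H, ∀ σ' ∈ H, res σ = res σ' → f σ = f σ' := by
    intro σ hσ σ' hσ' h
    have h0 : σ' = σ * (σ⁻¹ * σ') := by group
    rw [h0]
    symm
    apply hlev σ hσ _ (mul_mem (inv_mem hσ) hσ')
    intro x hx
    have h1 : res (σ⁻¹ * σ') = 1 := by rw [map_mul, map_inv, h, inv_mul_cancel]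
    have h2 := hres_apply (σ⁻¹ * σ') ⟨x, hEE' hx⟩
    rw [h1] at h2
    exact h2.symm
  letI : Fintype Hbar := Fintype.ofFinite _
  -- Dedekind independence of the characters `γ : E' → Ω`, `γ ∈ Hbar`
  let χ : Hbar → (E' →* Ω) := fun γ =>
    ((algebraMap E' Ω).comp (((γ : E' ≃ₐ[K] E') : E' →ₐ[K] E') : E' →+* E') : E' →+* Ω)
  have hχ : Function.Injective χ := by
    intro γ γ' h
    apply Subtype.ext
    apply AlgEquiv.ext
    intro x
    have := DFunLike.congr_fun h x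
    exact (algebraMap E' Ω).injective this
  have hli : LinearIndependent Ω (fun γ : Hbar => (χ γ : E' → Ω)) :=
    (linearIndependent_monoidHom E' Ω).comp χ hχ
  have hne : ∑ γ : Hbar, f (s γ) • (χ γ : E' → Ω) ≠ 0 := by
    intro h
    have := Fintype.linearIndependent_iff.1 hli (fun γ => f (s γ)) h 1
    exact hf0 _ (hsH 1) this
  obtain ⟨θ, hθ⟩ : ∃ θ : E', ∑ γ : Hbar, f (s γ) * (((γ : E' ≃ₐ[K] E') θ : E') : Ω) ≠ 0 := by
    by_contra hcon
    push Not at hcon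
    apply hne
    funext θ
    simpa [χ] using hcon θ
  refine ⟨_, hθ, fun τ hτ => ?_⟩
  rw [map_sum, Finset.mul_sum]
  -- multiplication by the image of `τ` on `Hbar`
  let τbar : Hbar := ⟨res τ, Subgroup.mem_map_of_mem res hτ⟩
  have key : ∀ γ : Hbar, f τ * τ (f (s γ) * (((γ : E' ≃ₐ[K] E') θ : E') : Ω)) =
      f (s (τbar * γ)) * ((((τbar * γ : Hbar) : E' ≃ₐ[K] E') θ : E') : Ω) := by
    intro γ
    have h1 : f (s (τbar * γ)) = f (τ * s γ) := by
      apply hdep _ (hsH _) _ (mul_mem hτ (hsH γ))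
      rw [hs, map_mul, hs]
      rfl
    rw [h1, hf τ hτ _ (hsH γ), map_mul, ← mul_assoc]
    congr 1
    show τ (((γ : E' ≃ₐ[K] E') θ : E') : Ω) = ((res τ * (γ : E' ≃ₐ[K] E')) θ : E')
    rw [AlgEquiv.mul_apply, hres_apply]
  simp only [key]
  exact Fintype.sum_bijective (fun γ => τbar * γ) (Group.mulLeft_bijective _) _ _ (fun γ => rfl)

/-- **Hilbert 90 at finite level on a subgroup**, form `σ α = f σ · α`. -/
theorem hilbert90_subgroup {K Ω : Type*} [Field K] [Field Ω] [Algebra K Ω] [IsGalois K Ω]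
    (H : Subgroup (Ω ≃ₐ[K] Ω))
    (f : (Ω ≃ₐ[K] Ω) → Ω) (hf0 : ∀ σ ∈ H, f σ ≠ 0)
    (hf : ∀ σ ∈ H, ∀ τ ∈ H, f (σ * τ) = f σ * σ (f τ))
    (E : IntermediateField K Ω) [FiniteDimensional K E]
    (hlev : ∀ σ ∈ H, ∀ τ ∈ H, (∀ x ∈ E, τ x = x) → f (σ * τ) = f σ) :
    ∃ α : Ω, α ≠ 0 ∧ ∀ σ ∈ H, σ α = f σ * α := by
  obtain ⟨α, hα, h⟩ := hilbert90_subgroup_aux H (fun σ => (f σ)⁻¹)
    (fun σ hσ => inv_ne_zero (hf0 σ hσ))
    (fun σ hσ τ hτ => by
      show (f (σ * τ))⁻¹ = (f σ)⁻¹ * σ ((f τ)⁻¹)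
      rw [hf σ hσ τ hτ, mul_inv, map_inv₀])
    E (fun σ hσ τ hτ hx => by
      show (f (σ * τ))⁻¹ = (f σ)⁻¹
      rw [hlev σ hσ τ hτ hx])
  refine ⟨α, hα, fun σ hσ => ?_⟩
  have h1 := h σ hσ
  have h2 : (f σ)⁻¹ * σ α = α := h1
  rw [← h2, ← mul_assoc, mul_inv_cancel₀ (hf0 σ hσ), one_mul, h2]

end Fermat.Agent.S59.H649
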