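import Mathlib
import Fermat.Agent.S59.H649.H90

/-!
# The Kummer computation behind "très ramifié ⟹ strict" (helper649)

`Ω / K` Galois, `H` a subgroup of `Gal(Ω/K)`, `σ` normalising `H`, `R` a commutative ring killed
by `m`, `c : Gal → R` an upper right matrix entry (a cocycle on `H` twisted by the cyclotomic
exponent `e`), `x, z, cσ` the entries of `σ`.  For additive characters `Λ, Λ₀ : R → Ω` with
`Λ ((x - a z) t) = Λ₀ t` there is `y ≠ 0` such that `W = (σ⁻¹ y / y) ^ a · Λ cσ` is a Kummer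
generator of `γ ↦ Λ₀ (c γ)` on `H`.  Mathlib only.
-/

set_option autoImplicit false
set_option linter.unusedSectionVars false

namespace Fermat.Agent.S59.H649

section AddCharFun

variable {R : Type*} [CommRing R] {Ω : Type*} [Field Ω] (Λ : R → Ω)

theorem charFun_ne_zero (hΛ0 : Λ 0 = 1) (hΛ : ∀ s t, Λ (s + t) = Λ s * Λ t) (t : R) :
    Λ t ≠ 0 := by
  intro h
  have := hΛ t (-t)
  rw [add_neg_cancel, hΛ0, h, zero_mul] at this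
  exact one_ne_zero this

theorem charFun_nsmul (hΛ0 : Λ 0 = 1) (hΛ : ∀ s t, Λ (s + t) = Λ s * Λ t) (k : ℕ) (t : R) :
    Λ ((k : R) * t) = Λ t ^ k := by
  induction k with
  | zero => rw [Nat.cast_zero, zero_mul, hΛ0, pow_zero]
  | succ k ih => rw [Nat.cast_succ, add_mul, one_mul, hΛ, ih, pow_succ]

theorem charFun_pow_eq_one (hΛ0 : Λ 0 = 1) (hΛ : ∀ s t, Λ (s + t) = Λ s * Λ t) {m : ℕ}
    (hm : (m : R) = 0) (t : R) : Λ t ^ m = 1 := by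
  rw [← charFun_nsmul Λ hΛ0 hΛ, hm, zero_mul, hΛ0]

theorem charFun_sub (hΛ0 : Λ 0 = 1) (hΛ : ∀ s t, Λ (s + t) = Λ s * Λ t) (s t : R) :
    Λ (s - t) = Λ s / Λ t := by
  rw [eq_div_iff (charFun_ne_zero Λ hΛ0 hΛ t), ← hΛ, sub_add_cancel]

end AddCharFun

/-- `σ⁻¹` acts on `m`-th roots of unity by the inverse exponent. -/
theorem inv_apply_pow_h649 {K Ω : Type*} [Field K] [Field Ω] [Algebra K Ω]
    (σ : Ω ≃ₐ[K] Ω) {m a : ℕ} (hσ : ∀ μ : Ω, μ ^ m = 1 → σ μ = μ ^ a) {μ : Ω}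
    (hμ : μ ^ m = 1) : (σ⁻¹ μ) ^ a = μ := by
  have h1 : (σ⁻¹ μ) ^ m = 1 := by rw [← map_pow, hμ, map_one]
  have h2 := hσ _ h1
  rw [← h2]
  show σ (σ.symm μ) = μ
  exact σ.apply_symm_apply μ

/-- **The Kummer computation.** -/
theorem kummer_core_h649 {K Ω : Type*} [Field K] [Field Ω] [Algebra K Ω] [IsGalois K Ω]
    (H : Subgroup (Ω ≃ₐ[K] Ω)) (σ : Ω ≃ₐ[K] Ω) (hconj : ∀ γ ∈ H, σ * γ * σ⁻¹ ∈ H)
    {R : Type*} [CommRing R] (m a : ℕ) (hm : (m : R) = 0)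
    (hσ : ∀ μ : Ω, μ ^ m = 1 → σ μ = μ ^ a)
    (e : (Ω ≃ₐ[K] Ω) → ℕ) (he : ∀ γ, ∀ μ : Ω, μ ^ m = 1 → γ μ = μ ^ (e γ))
    (c : (Ω ≃ₐ[K] Ω) → R) (x z cσ : R)
    (hc : ∀ γ ∈ H, ∀ γ' ∈ H, c (γ * γ') = (e γ : R) * c γ' + c γ)
    (E : IntermediateField K Ω) [FiniteDimensional K E]
    (hlev : ∀ τ ∈ H, (∀ x ∈ E, τ x = x) → c τ = 0)
    (hcj : ∀ γ ∈ H, z * c (σ * γ * σ⁻¹) = x * c γ + (1 - (e γ : R)) * cσ)
    (Λ Λ₀ : R → Ω) (hΛ0 : Λ 0 = 1) (hΛ : ∀ s t, Λ (s + t) = Λ s * Λ t)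
    (hd : ∀ t, Λ ((x - a * z) * t) = Λ₀ t) :
    ∃ y : Ω, y ≠ 0 ∧ ∀ γ ∈ H,
      γ ((σ⁻¹ y / y) ^ a * Λ cσ) = Λ₀ (c γ) * ((σ⁻¹ y / y) ^ a * Λ cσ) := by
  have hne := charFun_ne_zero Λ hΛ0 hΛ
  have hpow := charFun_pow_eq_one Λ hΛ0 hΛ hm
  -- the cocycle
  let f : (Ω ≃ₐ[K] Ω) → Ω := fun γ => Λ (z * c γ)
  have hf0 : ∀ γ ∈ H, f γ ≠ 0 := fun γ _ => hne _
  have hfc : ∀ γ ∈ H, ∀ γ' ∈ H, f (γ * γ') = f γ * γ (f γ') := by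
    intro γ hγ γ' hγ'
    show Λ (z * c (γ * γ')) = Λ (z * c γ) * γ (Λ (z * c γ'))
    rw [hc γ hγ γ' hγ', he γ _ (hpow _), ← charFun_nsmul Λ hΛ0 hΛ, mul_comm (Λ (z * c γ)),
      ← hΛ]
    congr 1
    ring
  have hflev : ∀ γ ∈ H, ∀ τ ∈ H, (∀ x ∈ E, τ x = x) → f (γ * τ) = f γ := by
    intro γ hγ τ hτ hfix
    rw [hfc γ hγ τ hτ]
    show f γ * γ (Λ (z * c τ)) = f γ
    rw [hlev τ hτ hfix, mul_zero, hΛ0, map_one, mul_one]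
  obtain ⟨y, hy0, hy⟩ := hilbert90_subgroup H f hf0 hfc E hflev
  refine ⟨y, hy0, fun γ hγ => ?_⟩
  set Y : Ω := σ⁻¹ y with hY
  have hY0 : Y ≠ 0 := by
    rw [hY]
    exact (map_ne_zero_iff _ (σ⁻¹).injective).mpr hy0
  set r : Ω := Λ cσ with hr
  have hr0 : r ≠ 0 := hne _
  have hrm : r ^ m = 1 := hpow _
  set F : Ω := f (σ * γ * σ⁻¹) with hF
  have hFm : F ^ m = 1 := hpow _
  -- the action of `γ` on `Y`
  have hγY : γ Y = σ⁻¹ F * Y := by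
    have h1 : γ Y = (σ⁻¹ * (σ * γ * σ⁻¹)) y := by
      rw [hY]
      have : σ⁻¹ * (σ * γ * σ⁻¹) = γ * σ⁻¹ := by group
      rw [this]
      rfl
    rw [h1, AlgEquiv.mul_apply, hy _ (hconj γ hγ), map_mul]
  -- the value of `F`
  have hFval : F * γ r = Λ₀ (c γ) * (f γ) ^ a * r := by
    show Λ (z * c (σ * γ * σ⁻¹)) * γ r = Λ₀ (c γ) * (Λ (z * c γ)) ^ a * r
    rw [hcj γ hγ, hΛ, he γ r hrm, ← hd (c γ), ← charFun_nsmul Λ hΛ0 hΛ a,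
      ← charFun_nsmul Λ hΛ0 hΛ (e γ), ← hΛ, ← hΛ, ← hΛ, ← hΛ]
    congr 1
    ring
  have hγy : γ y = f γ * y := hy γ hγ
  have hfγ0 : f γ ≠ 0 := hne _
  have hγr0 : γ r ≠ 0 := (map_ne_zero_iff _ γ.injective).mpr hr0
  have hinv : (σ⁻¹ F) ^ a = F := inv_apply_pow_h649 σ hσ hFm
  rw [map_mul, map_pow, map_div₀, hγY, hγy, div_pow, mul_pow, mul_pow, hinv, div_pow]
  have hya : y ^ a ≠ 0 := pow_ne_zero _ hy0
  have hfa : f γ ^ a ≠ 0 := pow_ne_zero _ hfγ0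
  have hF2 : F = Λ₀ (c γ) * (f γ) ^ a * r / γ r := by
    rw [eq_div_iff hγr0, hFval]
  rw [hF2]
  field_simp
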