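import Mathlib
import Fermat.Prelude.Def_GaloisRep_StrictOrdinary
import Fermat.Prelude.Def_GaloisRep_Flat

/-!
# Row S59, cell TW, leaf TW-STRICT — frozen interface (owner helper649)

`TW-STRICT`: a representation `ρ` over a noetherian local ring `A` (finite residue field of odd
characteristic `p`) which is ordinary at `p`, has cyclotomic determinant, and whose residual
representation is NOT flat at `p`, is STRICTLY ordinary at `p`.

Decomposition (board: `coord/S59-TWSTRICT-helper649.md`):

* `IsPeuAt p ρ̄ P`       : "peu ramifié" in Kummer form (the shape of the landed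
                          `S56.H906.FlatUnitStatement`): every Kummer character
                          `σ ↦ ζ ^ ξ (σ v - v)` of `{σ ∈ I_P : σ ζ = ζ}` is the Kummer character
                          of a `P`-unit.
* `PeuFlatStatement`     : (b)  ordinary + cyclotomic determinant + peu ramifié  ⟹  flat
                          (construction of a Hopf model, e.g. by an `S19.OrderDatum`).
* `TresStrictStatement`  : (a)  ordinary over `A` + cyclotomic determinant + residually NOT peu
                          ramifié  ⟹  strictly ordinary  (Kummer theory over the inertia field).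
* glue (`StrictGlue.lean`): `TWStrictStatement` from (a) and (b).

Definitions only; Prelude + Mathlib language.
-/

set_option autoImplicit false

namespace Fermat.Agent.S59.H649

/-- `ℚ̄`. -/
abbrev Qb : Type := AlgebraicClosure ℚ

/-- `Gal(ℚ̄/ℚ)`. -/
abbrev GQ : Type := Qb ≃ₐ[ℚ] Qb

section Defs

variable {A : Type} [CommRing A] [IsLocalRing A]

/-- `L` is an ordinary line of `ρ` at `P`: a direct summand of rank one, stable under the
decomposition group, with trivial action of inertia on the quotient
(the body of the Prelude's `GaloisRepAdic.IsOrdinaryAt`). -/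
structure IsOrdLineAt (ρ : GaloisRepAdic A) (P : ValuationSubring Qb)
    (L : Submodule A ρ.V) : Prop where
  basis : ∃ b : Module.Basis (Fin 2) A ρ.V, L = A ∙ b 0
  stable : ∀ σ ∈ P.decompositionSubgroup ℚ, ∀ v ∈ L, ρ.ρ σ v ∈ L
  inertia : ∀ σ ∈ P.inertiaSubgroupIn ℚ, ∀ v : ρ.V, ρ.ρ σ v - v ∈ L

/-- The strictness clause of the Prelude's `GaloisRepAdic.IsStrictOrdinaryAt` for the line `L`:
`D_P` acts on `L` by `x`, on `V / L` by `z`, and `x = χ_cyc · z`. -/
def IsStrictLineAt (p : ℕ) (ρ : GaloisRepAdic A) (P : ValuationSubring Qb)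
    (L : Submodule A ρ.V) : Prop :=
  ∀ σ ∈ P.decompositionSubgroup ℚ, ∃ x z : A,
    (∀ w ∈ L, ρ.ρ σ w = x • w) ∧ (∀ v : ρ.V, ρ.ρ σ v - z • v ∈ L) ∧
    ∀ (n a : ℕ), (∀ μ : AlgebraicClosure ℚ, μ ^ p ^ n = 1 → σ μ = μ ^ a) →
      x - (a : A) * z ∈ Ideal.span {((p ^ n : ℕ) : A)}

end Defs

/-- **Peu ramifié at `P`** (Kummer form): for every point `v`, every additive character `ξ` and
every primitive `p`-th root of unity `ζ`, the Kummer character `σ ↦ ζ ^ ξ (σ v - v)` of
`{σ ∈ I_P : σ ζ = ζ}` is the Kummer character of a `P`-unit `B`. -/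
def IsPeuAt (p : ℕ) {k : Type} [Field k] (ρbar : ResidualGaloisRep k)
    (P : ValuationSubring Qb) : Prop :=
  ∀ ζ : Qb, IsPrimitiveRoot ζ p → ∀ (ξ : ρbar.V →+ ZMod p) (v : ρbar.V),
    ∃ B : Qb, P.valuation B = 1 ∧
      ∀ σ ∈ P.inertiaSubgroupIn ℚ, σ ζ = ζ → σ B = ζ ^ (ξ (ρbar.ρ σ v - v)).val * B

/-- **TW-STRICT.**  Ordinary + cyclotomic determinant + residually not flat ⟹ strictly
ordinary. -/
def TWStrictStatement : Prop :=
  ∀ (p : ℕ) [Fact p.Prime], p ≠ 2 →
    ∀ (A : Type) [CommRing A] [IsLocalRing A] [IsNoetherianRing A]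
      [Finite (IsLocalRing.ResidueField A)] (ρ : GaloisRepAdic A),
      ρ.DetIsCyclotomic p → ρ.IsOrdinaryAt p →
      ¬ (GaloisRepAdic.ofResidualGaloisRep ρ.residual).IsFlatAt p →
      ρ.IsStrictOrdinaryAt p

/-- **(b) PEU ⟹ FLAT.**  A residual representation over a finite field of odd characteristic
`p` with cyclotomic determinant which at ONE place `P | p` has an ordinary line and is peu
ramifié, is flat at `p`. -/
def PeuFlatStatement : Prop :=
  ∀ (p : ℕ) [Fact p.Prime], p ≠ 2 →
    ∀ (k : Type) [Field k] [Finite k] (ρbar : ResidualGaloisRep k),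
      (GaloisRepAdic.ofResidualGaloisRep ρbar).DetIsCyclotomic p →
      ∀ P : ValuationSubring Qb, P.LiesOverPrime p →
      ∀ L : Submodule k ρbar.V, IsOrdLineAt (GaloisRepAdic.ofResidualGaloisRep ρbar) P L →
        IsPeuAt p ρbar P → (GaloisRepAdic.ofResidualGaloisRep ρbar).IsFlatAt p

/-- **(a) TRÈS ⟹ STRICT.**  If the residual representation is not peu ramifié at `P`, every
ordinary line of `ρ` at `P` is strict. -/
def TresStrictStatement : Prop :=
  ∀ (p : ℕ) [Fact p.Prime], p ≠ 2 →
    ∀ (A : Type) [CommRing A] [IsLocalRing A] [IsNoetherianRing A]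
      [Finite (IsLocalRing.ResidueField A)] (ρ : GaloisRepAdic A),
      ρ.DetIsCyclotomic p →
      ∀ P : ValuationSubring Qb, P.LiesOverPrime p →
      ∀ L : Submodule A ρ.V, IsOrdLineAt ρ P L →
        ¬ IsPeuAt p ρ.residual P → IsStrictLineAt p ρ P L

end Fermat.Agent.S59.H649
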