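import Mathlib

/-!
# Extension of additive characters of a finite ring (helper649)

* `exists_charFun_mul_h649` : for a finite commutative ring `R`, `d : R` and an additive
  character `Λ₀ : R → Ω` killing the annihilator of `d`, there is an additive character `Λ` with
  `Λ (d t) = Λ₀ t`.
* `zetaChar_h649` facts: `t ↦ ζ ^ (ℓ t).val` is an additive character.
* `mem_of_forall_mem_sup_pow_h649` : Krull's intersection theorem in the form
  `(∀ N, d ∈ J ⊔ 𝔪 ^ N) → d ∈ J`.

Mathlib only.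
-/

set_option autoImplicit false
set_option linter.unusedSectionVars false

namespace Fermat.Agent.S59.H649

/-- extension of an additive character from `d R` to `R` -/
theorem exists_charFun_mul_h649 {R : Type*} [CommRing R] [Finite R] {Ω : Type*} [Field Ω]
    [HasEnoughRootsOfUnity Ω (Monoid.exponent (Multiplicative R))]
    (d : R) (Λ₀ : R → Ω) (h0 : Λ₀ 0 = 1) (hadd : ∀ s t, Λ₀ (s + t) = Λ₀ s * Λ₀ t)
    (hker : ∀ t : R, d * t = 0 → Λ₀ t = 1) :
    ∃ Λ : R → Ω, Λ 0 = 1 ∧ (∀ s t, Λ (s + t) = Λ s * Λ t) ∧ ∀ t, Λ (d * t) = Λ₀ t := by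
  classical
  let Λ₀m : Multiplicative R →* Ω :=
    { toFun := fun t => Λ₀ t.toAdd
      map_one' := h0
      map_mul' := fun s t => hadd _ _ }
  let Λ₀u : Multiplicative R →* Ωˣ := Λ₀m.toHomUnits
  have hΛ₀u : ∀ t : Multiplicative R, ((Λ₀u t : Ωˣ) : Ω) = Λ₀ t.toAdd := fun t => rfl
  let φ : Multiplicative R →* Multiplicative R :=
    AddMonoidHom.toMultiplicative (AddMonoidHom.mulLeft d)
  have hφ : ∀ t : Multiplicative R, φ t = Multiplicative.ofAdd (d * t.toAdd) := fun t => rfl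
  let S : Subgroup (Multiplicative R) := φ.range
  let φr : Multiplicative R →* S := φ.rangeRestrict
  have hsurj : Function.Surjective φr := φ.rangeRestrict_surjective
  have hle : φr.ker ≤ Λ₀u.ker := by
    intro t ht
    rw [MonoidHom.mem_ker] at ht ⊢
    have h1 : φ t = 1 := by
      have := congrArg (Subtype.val) ht
      exact this
    rw [hφ] at h1
    have h2 : d * t.toAdd = 0 := by
      have := congrArg Multiplicative.toAdd h1
      exact this
    apply Units.ext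
    rw [hΛ₀u, hker _ h2]
    rfl
  let Λ₁ : S →* Ωˣ := MonoidHom.liftOfSurjective φr hsurj ⟨Λ₀u, hle⟩
  have hΛ₁ : ∀ t : Multiplicative R, Λ₁ (φr t) = Λ₀u t := fun t =>
    MonoidHom.liftOfRightInverse_comp_apply _ _ _ ⟨Λ₀u, hle⟩ t
  obtain ⟨Λu, hΛu⟩ := MonoidHom.domRestrict_surjective (M := Ω) S Λ₁
  have hres : ∀ s : S, Λu (s : Multiplicative R) = Λ₁ s := fun s => by
    rw [← hΛu]
    rfl
  refine ⟨fun t => ((Λu (Multiplicative.ofAdd t) : Ωˣ) : Ω), ?_, ?_, ?_⟩
  · show ((Λu 1 : Ωˣ) : Ω) = 1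
    rw [map_one]
    rfl
  · intro s t
    show ((Λu (Multiplicative.ofAdd s * Multiplicative.ofAdd t) : Ωˣ) : Ω) = _
    rw [map_mul]
    rfl
  · intro t
    show ((Λu (Multiplicative.ofAdd (d * t)) : Ωˣ) : Ω) = Λ₀ t
    have h1 : Multiplicative.ofAdd (d * t) = ((φr (Multiplicative.ofAdd t) : S) :
        Multiplicative R) := rfl
    rw [h1, hres, hΛ₁, hΛ₀u]
    rfl

/-- `t ↦ ζ ^ (ℓ t).val` is additive when `ζ ^ p = 1` -/
theorem zeta_pow_val_add_h649 {Ω : Type*} [Field Ω] {p : ℕ} [NeZero p] {ζ : Ω} (hζ : ζ ^ p = 1)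
    (s t : ZMod p) : ζ ^ (s + t).val = ζ ^ s.val * ζ ^ t.val := by
  rw [ZMod.val_add, ← pow_eq_pow_mod _ hζ, pow_add]

/-- Krull's intersection theorem modulo an ideal -/
theorem mem_of_forall_mem_sup_pow_h649 {A : Type*} [CommRing A] [IsLocalRing A]
    [IsNoetherianRing A] (J : Ideal A) (d : A)
    (h : ∀ N : ℕ, d ∈ J ⊔ IsLocalRing.maximalIdeal A ^ N) : d ∈ J := by
  have hK := Ideal.iInf_pow_smul_eq_bot_of_isLocalRing (R := A) (M := A ⧸ J)
    (IsLocalRing.maximalIdeal A) (Ideal.IsPrime.ne_top inferInstance)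
  have hmem : (Ideal.Quotient.mk J d : A ⧸ J) ∈
      ⨅ i : ℕ, (IsLocalRing.maximalIdeal A ^ i) • (⊤ : Submodule A (A ⧸ J)) := by
    rw [Submodule.mem_iInf]
    intro N
    obtain ⟨j, hj, m, hm, hjm⟩ := Submodule.mem_sup.mp (h N)
    have h1 : (Ideal.Quotient.mk J d : A ⧸ J) = m • (Ideal.Quotient.mk J 1 : A ⧸ J) := by
      rw [← hjm, map_add, Ideal.Quotient.eq_zero_iff_mem.mpr hj, zero_add]
      show _ = Ideal.Quotient.mk J (m • 1)
      rw [smul_eq_mul, mul_one]
    rw [h1]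
    exact Submodule.smul_mem_smul hm Submodule.mem_top
  rw [hK, Submodule.mem_bot] at hmem
  exact Ideal.Quotient.eq_zero_iff_mem.mp hmem

end Fermat.Agent.S59.H649
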