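import Mathlib

/-!
# Upper triangular `2 × 2` bookkeeping for an ordinary line (helper649)

`b` a basis of `V` indexed by `Fin 2`, `g : V →ₗ[A] V` with `g (b 0) ∈ A ∙ b 0`:
`g (b 0) = X • b 0`, `g (b 1) = C • b 0 + Z • b 1`.  Mathlib only.
-/

set_option autoImplicit false
set_option linter.unusedSectionVars false

namespace Fermat.Agent.S59.H649

variable {A : Type*} [CommRing A] {V : Type*} [AddCommGroup V] [Module A V]
  (b : Module.Basis (Fin 2) A V)

/-- the entry `(0,0)` -/
noncomputable def cX (g : V →ₗ[A] V) : A := b.repr (g (b 0)) 0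

/-- the entry `(0,1)` -/
noncomputable def cC (g : V →ₗ[A] V) : A := b.repr (g (b 1)) 0

/-- the entry `(1,1)` -/
noncomputable def cZ (g : V →ₗ[A] V) : A := b.repr (g (b 1)) 1

theorem repr_comb (x y : A) (i : Fin 2) :
    b.repr (x • b 0 + y • b 1) i = if i = 0 then x else y := by
  rw [map_add, map_smul, map_smul, Module.Basis.repr_self, Module.Basis.repr_self]
  fin_cases i <;> simp

theorem repr_comb_zero (x y : A) : b.repr (x • b 0 + y • b 1) 0 = x := by
  rw [repr_comb]; simp

theorem repr_comb_one (x y : A) : b.repr (x • b 0 + y • b 1) 1 = y := by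
  rw [repr_comb]; simp

theorem apply_b1 (g : V →ₗ[A] V) : g (b 1) = cC b g • b 0 + cZ b g • b 1 := by
  have h := b.sum_repr (g (b 1))
  rw [Fin.sum_univ_two] at h
  exact h.symm

theorem apply_b0 {g : V →ₗ[A] V} (hg : g (b 0) ∈ Submodule.span A {b 0}) :
    g (b 0) = cX b g • b 0 := by
  obtain ⟨y, hy⟩ := Submodule.mem_span_singleton.mp hg
  have h1 : cX b g = y := by
    unfold cX
    rw [← hy]
    have := repr_comb_zero b y 0
    rwa [zero_smul, add_zero] at this
  rw [h1, hy]

theorem apply_mem_span {g : V →ₗ[A] V} (hg : g (b 0) ∈ Submodule.span A {b 0}) {w : V}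
    (hw : w ∈ Submodule.span A {b 0}) : g w = cX b g • w := by
  obtain ⟨y, rfl⟩ := Submodule.mem_span_singleton.mp hw
  rw [map_smul, apply_b0 b hg, smul_comm]

theorem cX_mul {g h : V →ₗ[A] V} (hg : g (b 0) ∈ Submodule.span A {b 0})
    (hh : h (b 0) ∈ Submodule.span A {b 0}) : cX b (g * h) = cX b g * cX b h := by
  have h1 : (g * h) (b 0) = (cX b g * cX b h) • b 0 := by
    rw [Module.End.mul_apply, apply_b0 b hh, map_smul, apply_b0 b hg, smul_smul, mul_comm]
  have h2 := repr_comb_zero b (cX b g * cX b h) 0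
  rw [zero_smul, add_zero, ← h1] at h2
  exact h2

theorem mul_b1 {g : V →ₗ[A] V} (hg : g (b 0) ∈ Submodule.span A {b 0}) (h : V →ₗ[A] V) :
    (g * h) (b 1) = (cX b g * cC b h + cC b g * cZ b h) • b 0 + (cZ b g * cZ b h) • b 1 := by
  rw [Module.End.mul_apply, apply_b1 b h, map_add, map_smul, map_smul, apply_b0 b hg,
    apply_b1 b g, smul_add, smul_smul, smul_smul, smul_smul, add_smul, ← add_assoc,
    mul_comm (cC b h), mul_comm (cZ b h) (cC b g), mul_comm (cZ b h) (cZ b g)]

theorem cC_mul {g : V →ₗ[A] V} (hg : g (b 0) ∈ Submodule.span A {b 0}) (h : V →ₗ[A] V) :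
    cC b (g * h) = cX b g * cC b h + cC b g * cZ b h := by
  show b.repr ((g * h) (b 1)) 0 = _
  rw [mul_b1 b hg, repr_comb_zero]

theorem cZ_mul {g : V →ₗ[A] V} (hg : g (b 0) ∈ Submodule.span A {b 0}) (h : V →ₗ[A] V) :
    cZ b (g * h) = cZ b g * cZ b h := by
  show b.repr ((g * h) (b 1)) 1 = _
  rw [mul_b1 b hg, repr_comb_one]

theorem repr_one_of_mem_span {w : V} (hw : w ∈ Submodule.span A {b 0}) : b.repr w 1 = 0 := by
  obtain ⟨y, rfl⟩ := Submodule.mem_span_singleton.mp hw
  have := repr_comb_one b y 0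
  rwa [zero_smul, add_zero] at this

theorem cZ_eq_one {g : V →ₗ[A] V} (hg : g (b 1) - b 1 ∈ Submodule.span A {b 0}) :
    cZ b g = 1 := by
  have h := repr_one_of_mem_span b hg
  rw [map_sub, Finsupp.sub_apply, Module.Basis.repr_self, Finsupp.single_eq_same,
    sub_eq_zero] at h
  exact h

theorem det_eq_mul {g : V →ₗ[A] V} (hg : g (b 0) ∈ Submodule.span A {b 0}) :
    LinearMap.det g = cX b g * cZ b g := by
  rw [← LinearMap.det_toMatrix b, Matrix.det_fin_two]
  have h00 : LinearMap.toMatrix b b g 0 0 = cX b g := by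
    rw [LinearMap.toMatrix_apply]; rfl
  have h11 : LinearMap.toMatrix b b g 1 1 = cZ b g := by
    rw [LinearMap.toMatrix_apply]; rfl
  have h10 : LinearMap.toMatrix b b g 1 0 = 0 := by
    rw [LinearMap.toMatrix_apply]
    exact repr_one_of_mem_span b hg
  rw [h00, h11, h10, mul_zero, sub_zero]

theorem apply_sub_smul_mem {g : V →ₗ[A] V} (hg : g (b 0) ∈ Submodule.span A {b 0}) (v : V) :
    g v - cZ b g • v ∈ Submodule.span A {b 0} := by
  have hv := b.sum_repr v
  rw [Fin.sum_univ_two] at hv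
  rw [Submodule.mem_span_singleton]
  refine ⟨b.repr v 0 * cX b g + b.repr v 1 * cC b g - cZ b g * b.repr v 0, ?_⟩
  conv_rhs => rw [← hv]
  rw [map_add, map_smul, map_smul, apply_b0 b hg, apply_b1 b g]
  simp only [smul_add, smul_smul, sub_smul, add_smul]
  rw [mul_comm (cZ b g) (b.repr v 1)]
  abel

/-- coordinates of an element of `I • ⊤` lie in `I` -/
theorem repr_mem_of_mem_smul_top (I : Ideal A) {v : V}
    (hv : v ∈ I • (⊤ : Submodule A V)) (i : Fin 2) : b.repr v i ∈ I := by
  refine Submodule.smul_induction_on (p := fun v => b.repr v i ∈ I) hv ?_ ?_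
  · intro r hr w _
    rw [map_smul, Finsupp.smul_apply, smul_eq_mul]
    exact I.mul_mem_right _ hr
  · intro x y hx hy
    rw [map_add, Finsupp.add_apply]
    exact I.add_mem hx hy

end Fermat.Agent.S59.H649
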