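import Fermat.Agent.S59.H649.StrictSpec
import Fermat.Agent.S59.H649.OrdMatrix
import Fermat.Agent.S59.H649.KummerCore
import Fermat.Agent.S59.H649.CharExt
import Fermat.Agent.A2.IF.H429.Inertia

/-!
# Row S59, leaf TW-STRICT, part (a): très ramifié ⟹ strict (helper649)

`tresStrict : TresStrictStatement`.

For `σ ∈ D_P` with matrix `[[X, C], [0, Z]]` in an ordinary basis and cyclotomic exponent `a`
modulo `p ^ n`, put `d = X - a Z`.  If `d ∉ J = (p ^ n) + 𝔪 ^ N`, the additive character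
`t ↦ ζ ^ ξ (t̄ w)` of `A / J` factors through multiplication by `d`, say as `Λ`; a Hilbert 90
generator `y` of the inertia cocycle `γ ↦ Λ (Z C_γ)` gives the `P`-unit
`W = (σ⁻¹ y / y) ^ a · Λ (C_σ)`, a Kummer generator of `γ ↦ ζ ^ ξ (ρ̄ γ v - v)`: the residual
representation is peu ramifié.  Hence `d ∈ J` for all `N`, and `d ∈ (p ^ n)` by Krull.
-/

set_option autoImplicit false
set_option linter.style.haveILetI false
set_option linter.unusedSectionVars false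
set_option linter.unusedVariables false

open scoped TensorProduct

namespace Fermat.Agent.S59.H649

attribute [local instance] Fermat.Agent.S55.Bridge.isGalois_Qbar

/-- cyclotomic exponents exist -/
theorem exists_cycExp_h649 (m : ℕ) [NeZero m] (γ : GQ) :
    ∃ a : ℕ, ∀ μ : Qb, μ ^ m = 1 → γ μ = μ ^ a := by
  haveI : NeZero ((m : ℕ) : ℚ) := ⟨Nat.cast_ne_zero.mpr (NeZero.ne m)⟩
  obtain ⟨ζ, hζ⟩ := HasEnoughRootsOfUnity.exists_primitiveRoot Qb m
  have h1 : (γ ζ) ^ m = 1 := by rw [← map_pow, hζ.pow_eq_one, map_one]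
  obtain ⟨a, -, ha⟩ := hζ.eq_pow_of_pow_eq_one h1
  refine ⟨a, fun μ hμ => ?_⟩
  obtain ⟨i, -, rfl⟩ := hζ.eq_pow_of_pow_eq_one hμ
  rw [map_pow, ← ha, ← pow_mul, ← pow_mul, mul_comm]

/-- the decomposition group normalises the inertia group -/
theorem conj_mem_inertiaIn_h649 (P : ValuationSubring Qb) {τ σ : GQ}
    (hτ : τ ∈ P.decompositionSubgroup ℚ) (hσ : σ ∈ P.inertiaSubgroupIn ℚ) :
    τ * σ * τ⁻¹ ∈ P.inertiaSubgroupIn ℚ := by
  obtain ⟨t, ht, rfl⟩ := hσ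
  let d : P.decompositionSubgroup ℚ := ⟨τ, hτ⟩
  have hn : (P.inertiaSubgroup ℚ).Normal := MonoidHom.normal_ker _
  exact ⟨d * t * d⁻¹, hn.conj_mem t ht d, rfl⟩

/-- roots of unity have trivial valuation -/
theorem valuation_eq_one_of_pow_h649 (P : ValuationSubring Qb) {r : Qb} {m : ℕ} (hm : m ≠ 0)
    (hr : r ^ m = 1) : P.valuation r = 1 := by
  have h := congrArg P.valuation hr
  rw [map_pow, map_one] at h
  exact (pow_eq_one_iff_left hm).mp h

section Residual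

variable {A : Type} [CommRing A] [IsLocalRing A] {V : Type} [AddCommGroup V] [Module A V]

/-- `1 ⊗ (x • v) = x̄ • (1 ⊗ v)` -/
theorem one_tmul_smul_h649 (x : A) (v : V) :
    (1 : IsLocalRing.ResidueField A) ⊗ₜ[A] (x • v) =
      IsLocalRing.residue A x • ((1 : IsLocalRing.ResidueField A) ⊗ₜ[A] v) := by
  rw [TensorProduct.tmul_smul, TensorProduct.smul_tmul', TensorProduct.smul_tmul',
    Algebra.smul_def, mul_one, smul_eq_mul, mul_one]
  rfl

/-- the residual matrix of an ordinary element acting trivially on the quotient and with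
`X ≡ 1`: `ḡ v̄ - v̄ = C̄ • β̄ • (1 ⊗ b 0)` -/
theorem baseChange_sub_eq_h649 (b : Module.Basis (Fin 2) A V) {g : V →ₗ[A] V}
    (hg : g (b 0) ∈ Submodule.span A {b 0})
    (hX : IsLocalRing.residue A (cX b g) = 1) (hZ : cZ b g = 1)
    (v : IsLocalRing.ResidueField A ⊗[A] V) :
    g.baseChange (IsLocalRing.ResidueField A) v - v =
      IsLocalRing.residue A (cC b g) •
        ((b.baseChange (IsLocalRing.ResidueField A)).repr v 1 •
          ((1 : IsLocalRing.ResidueField A) ⊗ₜ[A] b 0)) := by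
  set bk := b.baseChange (IsLocalRing.ResidueField A) with hbk
  have hv := bk.sum_repr v
  rw [Fin.sum_univ_two] at hv
  have h0 : bk 0 = (1 : IsLocalRing.ResidueField A) ⊗ₜ[A] b 0 :=
    Module.Basis.baseChange_apply _ _ _
  have h1 : bk 1 = (1 : IsLocalRing.ResidueField A) ⊗ₜ[A] b 1 :=
    Module.Basis.baseChange_apply _ _ _
  have e0 : g.baseChange (IsLocalRing.ResidueField A) (bk 0) = bk 0 := by
    rw [h0, LinearMap.baseChange_tmul, apply_b0 b hg, one_tmul_smul_h649, hX, one_smul]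
  have e1 : g.baseChange (IsLocalRing.ResidueField A) (bk 1) =
      IsLocalRing.residue A (cC b g) • bk 0 + bk 1 := by
    rw [h0, h1, LinearMap.baseChange_tmul, apply_b1 b g, hZ, one_smul, TensorProduct.tmul_add,
      one_tmul_smul_h649]
  conv_lhs => rw [← hv]
  rw [map_add, map_smul, map_smul, e0, e1, ← h0, smul_add, smul_smul, smul_smul, mul_comm]
  abel

end Residual

/-- **Key congruence.**  Residually très ramifié forces `X ≡ a Z` modulo `(p ^ n) + 𝔪 ^ N`. -/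
theorem tres_congr_h649 {p : ℕ} [Fact p.Prime] {A : Type} [CommRing A] [IsLocalRing A]
    [IsNoetherianRing A] [Finite (IsLocalRing.ResidueField A)] (ρ : GaloisRepAdic A)
    (hdet : ρ.DetIsCyclotomic p) (P : ValuationSubring Qb)
    (b : Module.Basis (Fin 2) A ρ.V) (hL : IsOrdLineAt ρ P (Submodule.span A {b 0}))
    (hpeu : ¬ IsPeuAt p ρ.residual P) {σ : GQ} (hσ : σ ∈ P.decompositionSubgroup ℚ)
    (n a : ℕ) (ha : ∀ μ : Qb, μ ^ p ^ n = 1 → σ μ = μ ^ a) (N : ℕ) :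
    cX b (ρ.ρ σ) - (a : A) * cZ b (ρ.ρ σ) ∈
      Ideal.span {((p ^ n : ℕ) : A)} ⊔ IsLocalRing.maximalIdeal A ^ N := by
  classical
  have hp : p.Prime := Fact.out
  haveI : NeZero p := ⟨hp.ne_zero⟩
  haveI : NeZero (p ^ n) := ⟨pow_ne_zero _ hp.ne_zero⟩
  -- trivial cases
  rcases Nat.eq_zero_or_pos n with hn0 | hn
  · subst hn0
    have : Ideal.span {((p ^ 0 : ℕ) : A)} = ⊤ := by
      rw [pow_zero, Nat.cast_one, Ideal.span_singleton_one]
    rw [this, top_sup_eq]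
    exact Submodule.mem_top
  rcases Nat.eq_zero_or_pos N with hN0 | hN
  · subst hN0
    rw [pow_zero, Ideal.one_eq_top, sup_top_eq]
    exact Submodule.mem_top
  by_contra hd
  set J : Ideal A := Ideal.span {((p ^ n : ℕ) : A)} ⊔ IsLocalRing.maximalIdeal A ^ N with hJ
  set d : A := cX b (ρ.ρ σ) - (a : A) * cZ b (ρ.ρ σ) with hd_def
  have hpnJ : ((p ^ n : ℕ) : A) ∈ J :=
    Ideal.mem_sup_left (Ideal.subset_span (Set.mem_singleton _))
  have hmNJ : IsLocalRing.maximalIdeal A ^ N ≤ J := le_sup_right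
  have hJm : J ≤ IsLocalRing.maximalIdeal A := by
    refine sup_le ?_ (Ideal.pow_le_self (Nat.pos_iff_ne_zero.mp hN))
    rw [Ideal.span_singleton_le_iff_mem, Nat.cast_pow]
    exact Ideal.pow_mem_of_mem _ hdet.1 n hn
  -- stability
  have hstab : ∀ τ ∈ P.decompositionSubgroup ℚ, ρ.ρ τ (b 0) ∈ Submodule.span A {b 0} :=
    fun τ hτ => hL.stable τ hτ _ (Submodule.mem_span_singleton_self _)
  have hID : ∀ γ ∈ P.inertiaSubgroupIn ℚ, γ ∈ P.decompositionSubgroup ℚ :=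
    fun γ hγ => Fermat.Agent.A2.IF.H429.decomp_of_inertia P hγ
  have hZ1 : ∀ γ ∈ P.inertiaSubgroupIn ℚ, cZ b (ρ.ρ γ) = 1 :=
    fun γ hγ => cZ_eq_one b (hL.inertia γ hγ (b 1))
  have hXdet : ∀ γ ∈ P.inertiaSubgroupIn ℚ, LinearMap.det (ρ.ρ γ) = cX b (ρ.ρ γ) := by
    intro γ hγ
    rw [det_eq_mul b (hstab γ (hID γ hγ)), hZ1 γ hγ, mul_one]
  -- the failure of peu ramifié
  unfold IsPeuAt at hpeu
  push Not at hpeu
  obtain ⟨ζ, hζ, ξ, vbar, hB⟩ := hpeu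
  have hζp : ζ ^ p = 1 := hζ.pow_eq_one
  set w : ρ.residual.V :=
    ((b.baseChange (IsLocalRing.ResidueField A)).repr vbar 1 •
      ((1 : IsLocalRing.ResidueField A) ⊗ₜ[A] b 0) : IsLocalRing.ResidueField A ⊗[A] ρ.V)
    with hw
  have hres : ∀ γ ∈ P.inertiaSubgroupIn ℚ, γ ζ = ζ →
      ρ.residual.ρ γ vbar - vbar = IsLocalRing.residue A (cC b (ρ.ρ γ)) • w := by
    intro γ hγ hγζ
    have hX1 : IsLocalRing.residue A (cX b (ρ.ρ γ)) = 1 := by
      have h1 : ∀ μ : Qb, μ ^ p ^ 1 = 1 → γ μ = μ ^ 1 := by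
        intro μ hμ
        rw [pow_one] at hμ ⊢
        obtain ⟨i, -, rfl⟩ := hζ.eq_pow_of_pow_eq_one hμ
        rw [map_pow, hγζ]
      have h2 := hdet.2 1 γ 1 h1
      rw [hXdet γ hγ, pow_one, Nat.cast_one] at h2
      have h3 : cX b (ρ.ρ γ) - 1 ∈ IsLocalRing.maximalIdeal A := by
        refine (Ideal.span_singleton_le_iff_mem (I := IsLocalRing.maximalIdeal A)).mpr hdet.1 h2
      have h4 := (IsLocalRing.residue_eq_zero_iff _).mpr h3
      rw [map_sub, map_one, sub_eq_zero] at h4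
      exact h4
    exact baseChange_sub_eq_h649 b (hstab γ (hID γ hγ)) hX1 (hZ1 γ hγ) vbar
  -- the finite quotient
  haveI hfinm : Finite (A ⧸ IsLocalRing.maximalIdeal A) :=
    ‹Finite (IsLocalRing.ResidueField A)›
  haveI hfinN : Finite (A ⧸ IsLocalRing.maximalIdeal A ^ N) :=
    Ideal.finite_quotient_pow (IsNoetherian.noetherian _) N
  haveI hfinJ : Finite (A ⧸ J) :=
    Finite.of_surjective (Ideal.Quotient.factor hmNJ) (Ideal.Quotient.factor_surjective hmNJ)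
  let mk : A →+* A ⧸ J := Ideal.Quotient.mk J
  have hmk0 : ∀ t : A, mk t = 0 ↔ t ∈ J := fun t => Ideal.Quotient.eq_zero_iff_mem
  let res' : A ⧸ J →+* IsLocalRing.ResidueField A :=
    Ideal.Quotient.lift J (IsLocalRing.residue A)
      (fun t ht => (IsLocalRing.residue_eq_zero_iff t).mpr (hJm ht))
  have hres' : ∀ t : A, res' (mk t) = IsLocalRing.residue A t := fun t => rfl
  let ℓ' : A ⧸ J →+ ZMod p :=
    { toFun := fun t => ξ (res' t • w)
      map_zero' := by rw [map_zero, zero_smul, map_zero]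
      map_add' := fun s t => by rw [map_add, add_smul, map_add] }
  have hℓ' : ∀ t : A ⧸ J, ℓ' t = ξ (res' t • w) := fun t => rfl
  let Λ₀ : A ⧸ J → Qb := fun t => ζ ^ (ℓ' t).val
  have hΛ₀0 : Λ₀ 0 = 1 := by
    show ζ ^ (ℓ' 0).val = 1
    rw [map_zero, ZMod.val_zero, pow_zero]
  have hΛ₀add : ∀ s t, Λ₀ (s + t) = Λ₀ s * Λ₀ t := by
    intro s t
    show ζ ^ (ℓ' (s + t)).val = ζ ^ (ℓ' s).val * ζ ^ (ℓ' t).val
    rw [map_add, zeta_pow_val_add_h649 hζp]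
  have hker : ∀ t : A ⧸ J, mk d * t = 0 → Λ₀ t = 1 := by
    intro t ht
    obtain ⟨t₀, rfl⟩ := Ideal.Quotient.mk_surjective t
    have h1 : d * t₀ ∈ J := by
      rw [← hmk0, map_mul]
      exact ht
    have h2 : t₀ ∈ IsLocalRing.maximalIdeal A := by
      by_contra hcon
      have hu : IsUnit t₀ := by
        by_contra hnu
        exact hcon ((IsLocalRing.mem_maximalIdeal _).mpr hnu)
      obtain ⟨u, rfl⟩ := hu
      apply hd
      have := J.mul_mem_right (↑u⁻¹ : A) h1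
      rwa [mul_assoc, Units.mul_inv, mul_one] at this
    show ζ ^ (ℓ' (Ideal.Quotient.mk J t₀)).val = 1
    rw [hℓ']
    have h3 : res' (Ideal.Quotient.mk J t₀) = 0 := by
      rw [show res' (Ideal.Quotient.mk J t₀) = IsLocalRing.residue A t₀ from rfl]
      exact (IsLocalRing.residue_eq_zero_iff t₀).mpr h2
    rw [h3, zero_smul, map_zero, ZMod.val_zero, pow_zero]
  haveI : NeZero ((Monoid.exponent (Multiplicative (A ⧸ J)) : ℕ) : ℚ) :=
    ⟨Nat.cast_ne_zero.mpr Monoid.exponent_ne_zero_of_finite⟩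
  obtain ⟨Λ, hΛ0, hΛadd, hΛd⟩ := exists_charFun_mul_h649 (Ω := Qb) (mk d) Λ₀ hΛ₀0 hΛ₀add hker
  -- the cyclotomic exponents
  have hex : ∀ γ : GQ, ∃ e : ℕ, ∀ μ : Qb, μ ^ p ^ n = 1 → γ μ = μ ^ e :=
    fun γ => exists_cycExp_h649 (p ^ n) γ
  choose e he using hex
  have hm : (((p ^ n : ℕ) : ℕ) : A ⧸ J) = 0 := by
    have := (hmk0 _).mpr hpnJ
    rwa [map_natCast] at this
  have hX : ∀ γ ∈ P.inertiaSubgroupIn ℚ, ∀ a' : ℕ, (∀ μ : Qb, μ ^ p ^ n = 1 → γ μ = μ ^ a') →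
      mk (cX b (ρ.ρ γ)) = (a' : A ⧸ J) := by
    intro γ hγ a' ha'
    have h1 := hdet.2 n γ a' ha'
    rw [hXdet γ hγ] at h1
    have h2 : cX b (ρ.ρ γ) - (a' : A) ∈ J := Ideal.mem_sup_left h1
    have h3 := (hmk0 _).mpr h2
    rw [map_sub, map_natCast, sub_eq_zero] at h3
    exact h3
  let c : GQ → A ⧸ J := fun γ => mk (cC b (ρ.ρ γ))
  have hc : ∀ γ ∈ P.inertiaSubgroupIn ℚ, ∀ γ' ∈ P.inertiaSubgroupIn ℚ,
      c (γ * γ') = (e γ : A ⧸ J) * c γ' + c γ := by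
    intro γ hγ γ' hγ'
    show mk (cC b (ρ.ρ (γ * γ'))) = (e γ : A ⧸ J) * mk (cC b (ρ.ρ γ')) + mk (cC b (ρ.ρ γ))
    rw [map_mul, cC_mul b (hstab γ (hID γ hγ)), hZ1 γ' hγ', mul_one, map_add, map_mul,
      hX γ hγ (e γ) (he γ)]
  obtain ⟨E, hEfin, hE⟩ := ρ.isAdicContinuous N
  haveI : FiniteDimensional ℚ E := hEfin
  have hlev : ∀ τ ∈ P.inertiaSubgroupIn ℚ, (∀ x ∈ E, τ x = x) → c τ = 0 := by
    intro τ _ hτ
    show mk (cC b (ρ.ρ τ)) = 0
    rw [hmk0]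
    apply hmNJ
    have h1 := repr_mem_of_mem_smul_top b _ (hE τ hτ (b 1)) 0
    rw [map_sub, Finsupp.sub_apply, Module.Basis.repr_self, Finsupp.single_apply,
      if_neg (by decide), sub_zero] at h1
    exact h1
  have hconj : ∀ γ ∈ P.inertiaSubgroupIn ℚ, σ * γ * σ⁻¹ ∈ P.inertiaSubgroupIn ℚ :=
    fun γ hγ => conj_mem_inertiaIn_h649 P hσ hγ
  have hcj : ∀ γ ∈ P.inertiaSubgroupIn ℚ,
      mk (cZ b (ρ.ρ σ)) * c (σ * γ * σ⁻¹) =
        mk (cX b (ρ.ρ σ)) * c γ + (1 - (e γ : A ⧸ J)) * mk (cC b (ρ.ρ σ)) := by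
    intro γ hγ
    have hγ' := hconj γ hγ
    have h1 : ρ.ρ (σ * γ * σ⁻¹) * ρ.ρ σ = ρ.ρ σ * ρ.ρ γ := by
      rw [← map_mul, ← map_mul]
      congr 1
      group
    have h2 := congrArg (cC b) h1
    rw [cC_mul b (hstab _ (hID _ hγ')), cC_mul b (hstab σ hσ), hZ1 γ hγ, mul_one] at h2
    have h3 := congrArg mk h2
    rw [RingHom.map_add, RingHom.map_add, RingHom.map_mul, RingHom.map_mul, RingHom.map_mul] at h3
    have hcyc : ∀ μ : Qb, μ ^ p ^ n = 1 → (σ * γ * σ⁻¹) μ = μ ^ (e γ) := by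
      intro μ hμ
      have hμ' : (σ⁻¹ μ) ^ p ^ n = 1 := by rw [← map_pow, hμ, map_one]
      show σ (γ (σ⁻¹ μ)) = μ ^ (e γ)
      rw [he γ _ hμ', map_pow]
      congr 1
      show σ (σ.symm μ) = μ
      exact σ.apply_symm_apply μ
    rw [hX _ hγ' (e γ) hcyc] at h3
    show mk (cZ b (ρ.ρ σ)) * mk (cC b (ρ.ρ (σ * γ * σ⁻¹))) =
      mk (cX b (ρ.ρ σ)) * mk (cC b (ρ.ρ γ)) + (1 - (e γ : A ⧸ J)) * mk (cC b (ρ.ρ σ))
    linear_combination h3
  have hdΛ : ∀ t, Λ ((mk (cX b (ρ.ρ σ)) - (a : A ⧸ J) * mk (cZ b (ρ.ρ σ))) * t) = Λ₀ t := by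
    intro t
    rw [← hΛd t, hd_def, map_sub, map_mul, map_natCast]
  obtain ⟨y, hy0, hW⟩ := kummer_core_h649 (K := ℚ) (Ω := Qb) (P.inertiaSubgroupIn ℚ) σ hconj
    (R := A ⧸ J) (p ^ n) a hm ha e he c (mk (cX b (ρ.ρ σ))) (mk (cZ b (ρ.ρ σ)))
    (mk (cC b (ρ.ρ σ))) hc E hlev hcj Λ Λ₀ hΛ0 hΛadd hdΛ
  -- the valuation of `W`
  have hvW : P.valuation ((σ⁻¹ y / y) ^ a * Λ (mk (cC b (ρ.ρ σ)))) = 1 := by
    have h1 : P.valuation (σ⁻¹ y) = P.valuation y :=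
      Fermat.Agent.A2.IF.H429.valuation_map_eq P (inv_mem hσ) y
    have h2 : P.valuation y ≠ 0 := (Valuation.ne_zero_iff _).mpr hy0
    have h3 : P.valuation (Λ (mk (cC b (ρ.ρ σ)))) = 1 :=
      valuation_eq_one_of_pow_h649 P (pow_ne_zero n hp.ne_zero)
        (charFun_pow_eq_one Λ hΛ0 hΛadd hm _)
    rw [map_mul, map_pow, map_div₀, h1, div_self h2, one_pow, one_mul, h3]
  obtain ⟨γ, hγ, hγζ, hne⟩ := hB _ hvW
  apply hne
  rw [hW γ hγ, hres γ hγ hγζ]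
  rfl

/-- **(a) TRÈS ⟹ STRICT.** -/
theorem tresStrict : TresStrictStatement := by
  intro p _ _ A _ _ _ _ ρ hdet P _ L hL hpeu
  obtain ⟨b, rfl⟩ := hL.basis
  intro σ hσ
  have hstab : ρ.ρ σ (b 0) ∈ Submodule.span A {b 0} :=
    hL.stable σ hσ _ (Submodule.mem_span_singleton_self _)
  refine ⟨cX b (ρ.ρ σ), cZ b (ρ.ρ σ), fun w hw => apply_mem_span b hstab hw,
    fun v => apply_sub_smul_mem b hstab v, fun n a ha => ?_⟩
  exact mem_of_forall_mem_sup_pow_h649 _ _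
    (fun N => tres_congr_h649 ρ hdet P b hL hpeu hσ n a ha N)

end Fermat.Agent.S59.H649
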