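import Fermat.Agent.S59.H649.StrictGlue
import Fermat.Agent.S59.H649.TresStrict
import Fermat.Agent.S59.H601.PeuFlat

/-!
# Row S59, cell TW, leaf TW-STRICT — CLOSED (helper649)

`twStrict : TWStrictStatement`: a representation over a noetherian local ring with finite
residue field of odd characteristic `p` which is ordinary at `p`, has cyclotomic determinant and
whose residual representation is not flat at `p`, is strictly ordinary at `p`.

* (a) `tresStrict` (helper649, `TresStrict.lean`): residually très ramifié ⟹ strict;
* (b) `Fermat.Agent.S59.H601.peuFlat` (helper601): peu ramifié ordinary ⟹ flat;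
* glue `twStrict_of_leaves` (`StrictGlue.lean`).
-/

set_option autoImplicit false

namespace Fermat.Agent.S59.H649

/-- **TW-STRICT.** -/
theorem twStrict : TWStrictStatement :=
  twStrict_of_leaves Fermat.Agent.S59.H601.peuFlat tresStrict

end Fermat.Agent.S59.H649
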