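import Fermat.Agent.S59.H649.StrictSpec

/-!
# Row S59, leaf TW-STRICT — glue (helper649)

`twStrict_of_leaves : PeuFlatStatement → TresStrictStatement → TWStrictStatement`.

The only content: the residual representation of an ordinary representation with cyclotomic
determinant again has an ordinary line and cyclotomic determinant.
-/

set_option autoImplicit false
set_option linter.unusedSectionVars false

open scoped TensorProduct

namespace Fermat.Agent.S59.H649

variable {A : Type} [CommRing A] [IsLocalRing A]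

/-- The determinant of the residual representation is cyclotomic. -/
theorem detIsCyclotomic_residual {ρ : GaloisRepAdic A} {p : ℕ} (h : ρ.DetIsCyclotomic p) :
    (GaloisRepAdic.ofResidualGaloisRep ρ.residual).DetIsCyclotomic p := by
  refine ⟨?_, fun n σ a ha => ?_⟩
  · have h0 : ((p : ℕ) : IsLocalRing.ResidueField A) = 0 := by
      have := (IsLocalRing.residue_eq_zero_iff (p : A)).mpr h.1
      rwa [map_natCast] at this
    rw [h0]
    exact Ideal.zero_mem _
  · have h1 := h.2 n σ a ha
    rw [Ideal.mem_span_singleton] at h1 ⊢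
    obtain ⟨c, hc⟩ := h1
    refine ⟨IsLocalRing.residue A c, ?_⟩
    have hdet : LinearMap.det ((GaloisRepAdic.ofResidualGaloisRep ρ.residual).ρ σ) =
        IsLocalRing.residue A (LinearMap.det (ρ.ρ σ)) := by
      show LinearMap.det ((ρ.ρ σ).baseChange (IsLocalRing.ResidueField A)) = _
      rw [LinearMap.det_baseChange]
      rfl
    rw [hdet]
    have := congrArg (IsLocalRing.residue A) hc
    rw [map_sub, map_mul, map_natCast, map_natCast] at this
    exact this

/-- The line spanned by `1 ⊗ b 0` in `k ⊗ V`. -/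
theorem span_tmul_eq_h649 (k : Type) [Field k] [Algebra A k] {V : Type} [AddCommGroup V]
    [Module A V] (b : Module.Basis (Fin 2) A V) :
    (Submodule.span k {(1 : k) ⊗ₜ[A] b 0} : Submodule k (k ⊗[A] V)) =
      Submodule.span k {(b.baseChange k) 0} := by
  rw [Module.Basis.baseChange_apply]

theorem tmul_mem_span_h649 (k : Type) [Field k] [Algebra A k] {V : Type} [AddCommGroup V]
    [Module A V] (b : Module.Basis (Fin 2) A V) (c : k) {w : V}
    (hw : w ∈ Submodule.span A {b 0}) :
    c ⊗ₜ[A] w ∈ (Submodule.span k {(1 : k) ⊗ₜ[A] b 0} : Submodule k (k ⊗[A] V)) := by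
  rw [Submodule.mem_span_singleton] at hw
  obtain ⟨y, rfl⟩ := hw
  rw [Submodule.mem_span_singleton]
  refine ⟨c * algebraMap A k y, ?_⟩
  rw [TensorProduct.smul_tmul', smul_eq_mul, mul_one, TensorProduct.tmul_smul,
    TensorProduct.smul_tmul', Algebra.smul_def, mul_comm]

theorem baseChange_mem_span_h649 (k : Type) [Field k] [Algebra A k] {V : Type}
    [AddCommGroup V] [Module A V] (b : Module.Basis (Fin 2) A V) (f : V →ₗ[A] V)
    (hf : ∀ v ∈ Submodule.span A {b 0}, f v ∈ Submodule.span A {b 0})
    (v : k ⊗[A] V)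
    (hv : v ∈ (Submodule.span k {(1 : k) ⊗ₜ[A] b 0} : Submodule k (k ⊗[A] V))) :
    f.baseChange k v ∈ (Submodule.span k {(1 : k) ⊗ₜ[A] b 0} : Submodule k (k ⊗[A] V)) := by
  rw [Submodule.mem_span_singleton] at hv
  obtain ⟨c, rfl⟩ := hv
  rw [map_smul]
  refine Submodule.smul_mem _ c ?_
  rw [LinearMap.baseChange_tmul]
  exact tmul_mem_span_h649 k b 1 (hf _ (Submodule.mem_span_singleton_self _))

theorem baseChange_sub_mem_span_h649 (k : Type) [Field k] [Algebra A k] {V : Type}
    [AddCommGroup V] [Module A V] (b : Module.Basis (Fin 2) A V) (f : V →ₗ[A] V)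
    (hf : ∀ v : V, f v - v ∈ Submodule.span A {b 0}) (v : k ⊗[A] V) :
    f.baseChange k v - v ∈
      (Submodule.span k {(1 : k) ⊗ₜ[A] b 0} : Submodule k (k ⊗[A] V)) := by
  induction v using TensorProduct.induction_on with
  | zero => rw [LinearMap.map_zero, sub_zero]; exact Submodule.zero_mem _
  | tmul c v =>
    rw [LinearMap.baseChange_tmul, ← TensorProduct.tmul_sub]
    exact tmul_mem_span_h649 k b c (hf v)
  | add x y hx hy =>
    rw [map_add, add_sub_add_comm]
    exact Submodule.add_mem _ hx hy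

/-- The image of an ordinary line in the residual representation is an ordinary line. -/
theorem exists_isOrdLineAt_residual {ρ : GaloisRepAdic A} {P : ValuationSubring Qb}
    {L : Submodule A ρ.V} (hL : IsOrdLineAt ρ P L) :
    ∃ L' : Submodule (IsLocalRing.ResidueField A) ρ.residual.V,
      IsOrdLineAt (GaloisRepAdic.ofResidualGaloisRep ρ.residual) P L' := by
  obtain ⟨b, hb⟩ := hL.basis
  subst hb
  exact ⟨(Submodule.span (IsLocalRing.ResidueField A)
      {(1 : IsLocalRing.ResidueField A) ⊗ₜ[A] b 0} :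
      Submodule (IsLocalRing.ResidueField A) (IsLocalRing.ResidueField A ⊗[A] ρ.V)),
    ⟨⟨b.baseChange (IsLocalRing.ResidueField A), span_tmul_eq_h649 _ b⟩,
      fun σ hσ v hv => baseChange_mem_span_h649 _ b (ρ.ρ σ) (hL.stable σ hσ) v hv,
      fun σ hσ v => baseChange_sub_mem_span_h649 _ b (ρ.ρ σ) (hL.inertia σ hσ) v⟩⟩

/-- **Glue.**  TW-STRICT from (a) TRÈS ⟹ STRICT and (b) PEU ⟹ FLAT. -/
theorem twStrict_of_leaves (hb : PeuFlatStatement) (ha : TresStrictStatement) :
    TWStrictStatement := by
  intro p _ hp2 A _ _ _ _ ρ hdet hord hnf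
  refine ⟨hdet.1, fun P hP => ?_⟩
  obtain ⟨L, hbas, hD, hI⟩ := hord P hP
  have hL : IsOrdLineAt ρ P L := ⟨hbas, hD, hI⟩
  by_cases hpeu : IsPeuAt p ρ.residual P
  · exfalso
    obtain ⟨L', hL'⟩ := exists_isOrdLineAt_residual hL
    exact hnf (hb p hp2 _ ρ.residual (detIsCyclotomic_residual hdet) P hP L' hL' hpeu)
  · exact ⟨L, hbas, hD, hI, ha p hp2 A ρ hdet P hP L hL hpeu⟩

end Fermat.Agent.S59.H649
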